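/-
S25 / SM3b (helper5770): `ofGlued` -- every `GluedModule` over a two-chart `𝔹` comes from a sheaf
of modules on a scheme `X` presented by `𝔹`.

Main declarations (namespace `Fermat.Agent.S25.H5770`):
* `Atlas 𝔹 X` : open immersions `j₁ : Spec B₁ ⟶ X`, `j₂ : Spec B₂ ⟶ X` covering `X`, with
  `Spec r₁ ≫ j₁ = Spec r₂ ≫ j₂ (= j₁₂)` and `range j₁ ∩ range j₂ ⊆ range j₁₂`.
* `ofGlued N 𝒜 : X.Modules` : the fibre product `j₁⁎Ñ₁ ×_{j₁₂⁎Ñ₁₂} j₂⁎Ñ₂`.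
* `ofGluedIso₁/₂/₁₂` : `(ofGlued N 𝒜).restrict j_i ≅ tilde N_i`.
* `ofGluedEquiv₁/₂/₁₂` : `N_i ≃ₗ[B_i] Γ((ofGlued N 𝒜).restrict j_i, ⊤)`.
* `ofGluedSec₁/₂/₁₂`, `ofGluedSec_res₁`, `ofGluedSec_res₂` : the sections attached to elements of
  `N_i` and their compatibility with `ι₁`, `ι₂` (so "`toGlued (ofGlued N) ≈ N`").
The construction is done first for bundled rings (`glued`, `gluedIso₁`, ..., section `Global`).
Mathlib + `Fermat.Agent.S25.Core` (helper5425) only.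
-/
import Mathlib
import Fermat.Agent.S25.Core

set_option autoImplicit false
set_option linter.unusedSectionVars false
set_option linter.style.haveILetI false
universe u
open CategoryTheory CategoryTheory.Limits AlgebraicGeometry TopologicalSpace Opposite

noncomputable section
namespace Fermat.Agent.S25.DICT.H5770

/-! ## Part 0: localization algebra -/
section LocAlg

variable {B B' : Type u} [CommRing B] [CommRing B'] [Algebra B B'] (f : B) (v : B')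

theorem isLocalization_away_of_core (hfv : algebraMap B B' f * v = 1)
    (hsurj : ∀ y : B', ∃ (a : B) (n : ℕ), y = algebraMap B B' a * v ^ n)
    (hker : ∀ a : B, algebraMap B B' a = 0 → ∃ n : ℕ, f ^ n * a = 0) :
    IsLocalization.Away f B' := by
  have hpow : ∀ n : ℕ, algebraMap B B' (f ^ n) * v ^ n = 1 := fun n => by
    rw [map_pow, ← mul_pow, hfv, one_pow]
  refine ⟨?_, ?_, ?_⟩
  · rintro ⟨_, n, rfl⟩
    exact IsUnit.of_mul_eq_one _ (hpow n)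
  · intro z
    obtain ⟨a, n, rfl⟩ := hsurj z
    refine ⟨(a, ⟨f ^ n, n, rfl⟩), ?_⟩
    change algebraMap B B' a * v ^ n * algebraMap B B' (f ^ n) = algebraMap B B' a
    rw [mul_assoc, mul_comm (v ^ n), hpow, mul_one]
  · intro x y hxy
    obtain ⟨n, hn⟩ := hker (x - y) (by rw [map_sub, hxy, sub_self])
    refine ⟨⟨f ^ n, n, rfl⟩, ?_⟩
    change f ^ n * x = f ^ n * y
    rw [← sub_eq_zero, ← mul_sub, hn]

variable {N N' : Type u} [AddCommGroup N] [Module B N] [AddCommGroup N'] [Module B' N']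
  [Module B N'] [IsScalarTower B B' N'] (ι : N →ₗ[B] N')

theorem isLocalizedModule_away_of_core (hfv : algebraMap B B' f * v = 1)
    (hsurjN : ∀ y : N', ∃ (n : N) (m : ℕ), y = v ^ m • ι n)
    (hkerN : ∀ n : N, ι n = 0 → ∃ m : ℕ, f ^ m • n = 0) :
    IsLocalizedModule (Submonoid.powers f) ι := by
  have hpow : ∀ n : ℕ, algebraMap B B' (f ^ n) * v ^ n = 1 := fun n => by
    rw [map_pow, ← mul_pow, hfv, one_pow]
  have hpow' : ∀ n : ℕ, v ^ n * algebraMap B B' (f ^ n) = 1 := fun n => by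
    rw [mul_comm, hpow]
  refine ⟨?_, ?_, ?_⟩
  · rintro ⟨_, n, rfl⟩
    rw [Module.End.isUnit_iff]
    constructor
    · intro x y hxy
      simp only [Module.algebraMap_end_apply] at hxy
      have := congrArg (fun z => v ^ n • z) hxy
      simp only [← algebraMap_smul B' (f ^ n) , smul_smul, hpow', one_smul] at this
      exact this
    · intro y
      refine ⟨v ^ n • y, ?_⟩
      simp only [Module.algebraMap_end_apply]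
      rw [← algebraMap_smul B' (f ^ n), smul_smul, hpow, one_smul]
  · intro y
    obtain ⟨n, m, rfl⟩ := hsurjN y
    refine ⟨(n, ⟨f ^ m, m, rfl⟩), ?_⟩
    change f ^ m • v ^ m • ι n = ι n
    rw [← algebraMap_smul B' (f ^ m), smul_smul, hpow, one_smul]
  · intro x y hxy
    obtain ⟨m, hm⟩ := hkerN (x - y) (by rw [map_sub, hxy, sub_self])
    refine ⟨⟨f ^ m, m, rfl⟩, ?_⟩
    change f ^ m • x = f ^ m • y
    rw [← sub_eq_zero, ← smul_sub, hm]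

end LocAlg


/-! ## Part 1: sections -/
section Sections

variable {R : CommRingCat.{u}}

/-- The (definitional) identification between the two ways of writing the sections of a
module on `Spec R`. -/
def gsec (Q : (Spec R).Modules) (U : (Spec R).Opens) :
    ((modulesSpecToSheaf.obj Q).presheaf.obj (op U) : ModuleCat R) ≃+ Γ(Q, U) := AddEquiv.refl _

theorem gsec_smul (Q : (Spec R).Modules) (U : (Spec R).Opens) (r : R)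
    (x : ((modulesSpecToSheaf.obj Q).presheaf.obj (op U) : ModuleCat R)) :
    gsec Q U (r • x) = r • gsec Q U x := rfl

/-- sections of `tilde M` coming from elements of `M`. -/
def tsec (M : ModuleCat.{u} R) (U : (Spec R).Opens) (m : M) : Γ(tilde M, U) :=
  gsec _ U ((tilde.toOpen M U).hom m)

theorem tsec_res (M : ModuleCat.{u} R) {U V : (Spec R).Opens} (i : V ⟶ U) (m : M) :
    (tilde M).presheaf.map i.op (tsec M U m) = tsec M V m := rfl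

/-- naturality of morphisms of modules, elementwise. -/
theorem app_res {Y : Scheme.{u}} {A A' : Y.Modules} (ψ : A ⟶ A') {U V : Y.Opens} (i : V ⟶ U)
    (x : Γ(A, U)) : ψ.app V (A.presheaf.map i.op x) = A'.presheaf.map i.op (ψ.app U x) := by
  have := ψ.mapPresheaf.naturality i.op
  exact congr($this x)

theorem presheaf_map_self {Y : Scheme.{u}} (A : Y.Modules) {U : Y.Opens} (i : U ⟶ U)
    (x : Γ(A, U)) : A.presheaf.map i.op x = x := by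
  rw [Subsingleton.elim i (𝟙 U), op_id, A.presheaf.map_id]
  rfl

theorem presheaf_map_map {Y : Scheme.{u}} (A : Y.Modules) {U V W : Y.Opens} (i : V ⟶ U)
    (j : W ⟶ V) (x : Γ(A, U)) :
    A.presheaf.map j.op (A.presheaf.map i.op x) = A.presheaf.map (j ≫ i).op x := by
  rw [op_comp, A.presheaf.map_comp]
  rfl

theorem tilde_map_app_tsec {M₁ M₂ : ModuleCat.{u} R} (g : M₁ ⟶ M₂) (U : (Spec R).Opens) (m : M₁) :
    (tilde.map g).app U (tsec M₁ U m) = tsec M₂ U (g.hom m) := by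
  have := tilde.toOpen_map_app g U
  exact congr($this m)

theorem fromTildeΓ_app_tsec (Q : (Spec R).Modules) (U : (Spec R).Opens)
    (x : (modulesSpecToSheaf.obj Q).presheaf.obj (op ⊤)) :
    Q.fromTildeΓ.app U (tsec _ U x) = Q.presheaf.map (homOfLE le_top).op (gsec Q ⊤ x) := by
  have := Scheme.Modules.toOpen_fromTildeΓ_app Q U
  exact congr($this x)

/-- The (definitional) identification of the sections of a restricted module. -/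
def rsec {X Y : Scheme.{u}} (Q : Y.Modules) (k : X ⟶ Y) [IsOpenImmersion k] (U' : X.Opens) :
    Γ(Q, k ''ᵁ U') ≃+ Γ(Q.restrict k, U') := AddEquiv.refl _

end Sections

section LocalSheaf

variable {R S : CommRingCat.{u}} [Algebra R S] (f : R) [IsLocalization.Away f S]
  (M : ModuleCat.{u} R) (M' : ModuleCat.{u} S) [Module R M'] [IsScalarTower R S M']
  (ι : M →ₗ[R] M') [IsLocalizedModule (Submonoid.powers f) ι]

variable (R S) in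
abbrev kk : Spec S ⟶ Spec R := Spec.map (CommRingCat.ofHom (algebraMap R S))

include f in
theorem isOpenImmersion_kk : IsOpenImmersion (kk R S) := IsOpenImmersion.of_isLocalization f

theorem kk_image_top [IsOpenImmersion (kk R S)] : (kk R S) ''ᵁ ⊤ = PrimeSpectrum.basicOpen f := by
  rw [Scheme.Hom.image_top_eq_opensRange]
  apply TopologicalSpace.Opens.ext
  exact PrimeSpectrum.localization_away_comap_range S f

/-- the localization map into sections over any open equal to `D(f)`. -/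
theorem isLocalizedModule_toOpen (U : (Spec R).Opens) (hU : U = PrimeSpectrum.basicOpen f) :
    IsLocalizedModule (Submonoid.powers f) (tilde.toOpen M U).hom := by
  subst hU
  infer_instance

variable [IsOpenImmersion (kk R S)]

def nu0 : M' ≃ₗ[R] ((modulesSpecToSheaf.obj (tilde M)).presheaf.obj (op ((kk R S) ''ᵁ ⊤)) : ModuleCat R) :=
  haveI := isLocalizedModule_toOpen f M _ (kk_image_top (S := S) f)
  IsLocalizedModule.linearEquiv (Submonoid.powers f) ι (tilde.toOpen M ((kk R S) ''ᵁ ⊤)).hom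

theorem nu0_apply (m : M) : nu0 f M M' ι (ι m) = (tilde.toOpen M ((kk R S) ''ᵁ ⊤)).hom m := by
  haveI := isLocalizedModule_toOpen f M _ (kk_image_top (S := S) f)
  exact IsLocalizedModule.linearEquiv_apply (Submonoid.powers f) ι (tilde.toOpen M ((kk R S) ''ᵁ ⊤)).hom m

/-- The quasi-coherent module `(tilde M)|_{Spec S}` . -/
abbrev QQ : (Spec S).Modules := (tilde M).restrict (kk R S)

/-- The (definitional) identification of `Γ(M̃, k(⊤))` with the global sections of `M̃|_{Spec S}`. -/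
def secRestr : ((modulesSpecToSheaf.obj (tilde M)).presheaf.obj (op ((kk R S) ''ᵁ ⊤)) : ModuleCat R) ≃+
    ((modulesSpecToSheaf.obj (QQ (S := S) M)).presheaf.obj (op ⊤) : ModuleCat S) := AddEquiv.refl _

theorem secRestr_smul (r : R)
    (y : ((modulesSpecToSheaf.obj (tilde M)).presheaf.obj (op ((kk R S) ''ᵁ ⊤)) : ModuleCat R)) :
    secRestr M (r • y) = algebraMap R S r • secRestr M y :=
  (Scheme.Modules.restrictAppIso_smul_Spec (M := tilde M) (CommRingCat.ofHom (algebraMap R S))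
    (U := ⊤) r (secRestr M y)).symm

/-- `ν : M' ≃ₗ[S] Γ((tilde M)|_{Spec S}, ⊤)`. -/
def nu : M' ≃ₗ[S] ((modulesSpecToSheaf.obj (QQ (S := S) M)).presheaf.obj (op ⊤) : ModuleCat S) where
  toFun x := secRestr M (nu0 f M M' ι x)
  invFun y := (nu0 f M M' ι).symm ((secRestr M).symm y)
  left_inv x := by simp
  right_inv y := by simp
  map_add' x y := by simp
  map_smul' s x := by
    obtain ⟨⟨a, ⟨_, n, rfl⟩⟩, h⟩ := IsLocalization.surj (Submonoid.powers f) s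
    have hu : IsUnit (algebraMap R S (f ^ n)) :=
      IsLocalization.map_units S (⟨f ^ n, n, rfl⟩ : Submonoid.powers f)
    simp only [RingHom.id_apply]
    rw [← hu.smul_left_cancel]
    have h1 : ∀ (r : R) (y : M'), secRestr M (nu0 f M M' ι (algebraMap R S r • y)) =
        algebraMap R S r • secRestr M (nu0 f M M' ι y) := by
      intro r y
      rw [algebraMap_smul, map_smul, secRestr_smul]
    rw [← h1, smul_smul, smul_smul, mul_comm, h, h1]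

theorem nu_apply (m : M) :
    nu f M M' ι (ι m) = secRestr M ((tilde.toOpen M ((kk R S) ''ᵁ ⊤)).hom m) := by
  change secRestr M (nu0 f M M' ι (ι m)) = _
  rw [nu0_apply]

/-- `θ : tilde M' ≅ (tilde M)|_{Spec S}`. -/
def theta : tilde M' ≅ QQ (S := S) M :=
  (tilde.functor S).mapIso (nu f M M' ι).toModuleIso ≪≫
    @asIso _ _ _ _ (QQ (S := S) M).fromTildeΓ (Scheme.Modules.isIso_fromTildeΓ_of_isQuasicoherent _)

theorem theta_hom : (theta f M M' ι).hom =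
    tilde.map (nu f M M' ι).toModuleIso.hom ≫ (QQ (S := S) M).fromTildeΓ := rfl

theorem theta_hom_app_top (m' : M') :
    (theta f M M' ι).hom.app ⊤ (tsec M' ⊤ m') = gsec _ ⊤ (nu f M M' ι m') := by
  rw [theta_hom, Scheme.Modules.Hom.comp_app, ConcreteCategory.comp_apply, tilde_map_app_tsec,
    fromTildeΓ_app_tsec, presheaf_map_self]
  rfl

theorem theta_hom_app (U' : (Spec S).Opens) (m : M) :
    (theta f M M' ι).hom.app U' (tsec M' U' (ι m)) =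
      rsec (tilde M) (kk R S) U' (tsec M ((kk R S) ''ᵁ U') m) := by
  have h := app_res (theta f M M' ι).hom (homOfLE (le_top : U' ≤ ⊤)) (tsec M' ⊤ (ι m))
  rw [tsec_res, theta_hom_app_top, nu_apply] at h
  exact h

theorem theta_inv_app (U' : (Spec S).Opens) (m : M) :
    (theta f M M' ι).inv.app U' (rsec (tilde M) (kk R S) U' (tsec M ((kk R S) ''ᵁ U') m)) =
      tsec M' U' (ι m) := by
  rw [← theta_hom_app f M M' ι, ← ConcreteCategory.comp_apply, ← Scheme.Modules.Hom.comp_app,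
    Iso.hom_inv_id]
  rfl

/-- `α : tilde M ⟶ k_* (tilde M')`. -/
def alpha : tilde M ⟶ (Scheme.Modules.pushforward (kk R S)).obj (tilde M') :=
  (Scheme.Modules.restrictAdjunction (kk R S)).unit.app (tilde M) ≫
    (Scheme.Modules.pushforward (kk R S)).map (theta f M M' ι).inv

theorem alpha_app_apply (U : (Spec R).Opens) (x : Γ(tilde M, U)) :
    (alpha f M M' ι).app U x = (theta f M M' ι).inv.app ((kk R S) ⁻¹ᵁ U)
      (rsec (tilde M) (kk R S) ((kk R S) ⁻¹ᵁ U)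
        ((tilde M).presheaf.map (homOfLE ((kk R S).image_preimage_le U)).op x)) := rfl

theorem alpha_app_tsec (U : (Spec R).Opens) (m : M) :
    (alpha f M M' ι).app U (tsec M U m) = tsec M' ((kk R S) ⁻¹ᵁ U) (ι m) := by
  rw [alpha_app_apply, tsec_res]
  exact theta_inv_app f M M' ι ((kk R S) ⁻¹ᵁ U) m

theorem isIso_alpha_app (U : (Spec R).Opens) (hU : U ≤ (kk R S).opensRange) :
    IsIso ((alpha f M M' ι).app U) := by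
  unfold alpha
  rw [Scheme.Modules.Hom.comp_app]
  have h1 : (kk R S) ''ᵁ ((kk R S) ⁻¹ᵁ U) = U := by
    rw [Scheme.Hom.image_preimage_eq_opensRange_inf]
    exact inf_eq_right.mpr hU
  have h2 : IsIso (((Scheme.Modules.restrictAdjunction (kk R S)).unit.app (tilde M)).app U) := by
    rw [Scheme.Modules.restrictAdjunction_unit_app_app,
      Subsingleton.elim (homOfLE ((kk R S).image_preimage_le U)) (eqToHom h1)]
    exact Functor.map_isIso _ _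
  have h3 : IsIso (((Scheme.Modules.pushforward (kk R S)).map (theta f M M' ι).inv).app U) := by
    rw [Scheme.Modules.pushforward_map_app]
    exact Scheme.Modules.Hom.isIso_iff_isIso_app.mp (Iso.isIso_inv _) _
  infer_instance

end LocalSheaf

section Global

variable {R₁ R₂ R₁₂ : CommRingCat.{u}} [Algebra R₁ R₁₂] [Algebra R₂ R₁₂] (f : R₁) (g : R₂)
  [IsLocalization.Away f R₁₂] [IsLocalization.Away g R₁₂]
  (M₁ : ModuleCat.{u} R₁) (M₂ : ModuleCat.{u} R₂) (M₁₂ : ModuleCat.{u} R₁₂)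
  [Module R₁ M₁₂] [IsScalarTower R₁ R₁₂ M₁₂] [Module R₂ M₁₂] [IsScalarTower R₂ R₁₂ M₁₂]
  (ι₁ : M₁ →ₗ[R₁] M₁₂) (ι₂ : M₂ →ₗ[R₂] M₁₂)
  [IsLocalizedModule (Submonoid.powers f) ι₁] [IsLocalizedModule (Submonoid.powers g) ι₂]
  [IsOpenImmersion (kk R₁ R₁₂)] [IsOpenImmersion (kk R₂ R₁₂)]
  {X : Scheme.{u}} (j₁ : Spec R₁ ⟶ X) (j₂ : Spec R₂ ⟶ X) [IsOpenImmersion j₁] [IsOpenImmersion j₂]
  (comm : kk R₁ R₁₂ ≫ j₁ = kk R₂ R₁₂ ≫ j₂)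

/-- The (definitional) identification of the sections of a pushforward. -/
def psec {Y Z : Scheme.{u}} (j : Y ⟶ Z) (T : Y.Modules) (V : Z.Opens) :
    Γ(T, j ⁻¹ᵁ V) ≃+ Γ((Scheme.Modules.pushforward j).obj T, V) := AddEquiv.refl _

/-- `a₁ : j₁⁎ M̃₁ ⟶ j₁₂⁎ M̃₁₂`. -/
def aOne : (Scheme.Modules.pushforward j₁).obj (tilde M₁) ⟶
    (Scheme.Modules.pushforward (kk R₁ R₁₂ ≫ j₁)).obj (tilde M₁₂) :=
  (Scheme.Modules.pushforward j₁).map (alpha f M₁ M₁₂ ι₁) ≫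
    (Scheme.Modules.pushforwardComp (kk R₁ R₁₂) j₁).hom.app (tilde M₁₂)

/-- `a₂ : j₂⁎ M̃₂ ⟶ j₁₂⁎ M̃₁₂`. -/
def aTwo : (Scheme.Modules.pushforward j₂).obj (tilde M₂) ⟶
    (Scheme.Modules.pushforward (kk R₁ R₁₂ ≫ j₁)).obj (tilde M₁₂) :=
  (Scheme.Modules.pushforward j₂).map (alpha g M₂ M₁₂ ι₂) ≫
    (Scheme.Modules.pushforwardComp (kk R₂ R₁₂) j₂).hom.app (tilde M₁₂) ≫
      (Scheme.Modules.pushforwardCongr comm.symm).hom.app (tilde M₁₂)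

theorem aOne_app_tsec (V : X.Opens) (m : M₁) :
    (aOne f M₁ M₁₂ ι₁ j₁).app V (psec j₁ (tilde M₁) V (tsec M₁ (j₁ ⁻¹ᵁ V) m)) =
      psec (kk R₁ R₁₂ ≫ j₁) (tilde M₁₂) V (tsec M₁₂ ((kk R₁ R₁₂ ≫ j₁) ⁻¹ᵁ V) (ι₁ m)) := by
  exact alpha_app_tsec f M₁ M₁₂ ι₁ (j₁ ⁻¹ᵁ V) m

theorem aTwo_app_tsec (V : X.Opens) (m : M₂) :
    (aTwo g M₂ M₁₂ ι₂ j₁ j₂ comm).app V (psec j₂ (tilde M₂) V (tsec M₂ (j₂ ⁻¹ᵁ V) m)) =
      psec (kk R₁ R₁₂ ≫ j₁) (tilde M₁₂) V (tsec M₁₂ ((kk R₁ R₁₂ ≫ j₁) ⁻¹ᵁ V) (ι₂ m)) := by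
  have h := alpha_app_tsec g M₂ M₁₂ ι₂ (j₂ ⁻¹ᵁ V) m
  have h2 : (aTwo g M₂ M₁₂ ι₂ j₁ j₂ comm).app V (psec j₂ (tilde M₂) V (tsec M₂ (j₂ ⁻¹ᵁ V) m)) =
      (tilde M₁₂).presheaf.map (eqToHom (by rw [comm]; rfl)).op
        ((alpha g M₂ M₁₂ ι₂).app (j₂ ⁻¹ᵁ V) (tsec M₂ (j₂ ⁻¹ᵁ V) m)) := rfl
  rw [h2, h]
  rfl

/-- sections over `V` as a functor to `Ab`. -/
def secFunctor (X : Scheme.{u}) (V : X.Opens) : X.Modules ⥤ Ab :=
  Scheme.Modules.toPresheaf X ⋙ (evaluation _ _).obj (op V)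

instance (V : X.Opens) : PreservesFiniteLimits (secFunctor X V) := by
  unfold secFunctor
  have : PreservesFiniteLimits (Scheme.Modules.toPresheaf X) := inferInstance
  have : PreservesFiniteLimits ((evaluation (Opens ↥X)ᵒᵖ Ab).obj (op V)) := inferInstance
  infer_instance

theorem secFunctor_map {A A' : X.Modules} (φ : A ⟶ A') (V : X.Opens) :
    (secFunctor X V).map φ = φ.app V := rfl

theorem isIso_app_fst {P₁ P₂ P₁₂ : X.Modules} (a₁ : P₁ ⟶ P₁₂) (a₂ : P₂ ⟶ P₁₂) (V : X.Opens)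
    (h : IsIso (a₂.app V)) : IsIso ((pullback.fst a₁ a₂).app V) := by
  have hp := (IsPullback.of_hasPullback a₁ a₂).map (secFunctor X V)
  rw [secFunctor_map, secFunctor_map, secFunctor_map, secFunctor_map] at hp
  exact hp.isIso_fst_of_isIso h

theorem isIso_app_snd {P₁ P₂ P₁₂ : X.Modules} (a₁ : P₁ ⟶ P₁₂) (a₂ : P₂ ⟶ P₁₂) (V : X.Opens)
    (h : IsIso (a₁.app V)) : IsIso ((pullback.snd a₁ a₂).app V) := by
  have hp := (IsPullback.of_hasPullback a₁ a₂).map (secFunctor X V)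
  rw [secFunctor_map, secFunctor_map, secFunctor_map, secFunctor_map] at hp
  exact hp.isIso_snd_of_isIso h

theorem isIso_app_of_isIso {Y : Scheme.{u}} {A A' : Y.Modules} (ψ : A ⟶ A') [IsIso ψ]
    (V : Y.Opens) : IsIso (ψ.app V) :=
  Scheme.Modules.Hom.isIso_iff_isIso_app.mp inferInstance V

include comm in
theorem preimage_le_opensRange_two (inter : j₁.opensRange ⊓ j₂.opensRange ≤
    (kk R₁ R₁₂ ≫ j₁).opensRange) (V : X.Opens) (hV : V ≤ j₁.opensRange) :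
    j₂ ⁻¹ᵁ V ≤ (kk R₂ R₁₂).opensRange := by
  intro x hx
  have h1 : j₂ x ∈ j₁.opensRange ⊓ j₂.opensRange := ⟨hV hx, ⟨x, rfl⟩⟩
  obtain ⟨z, hz⟩ := inter h1
  rw [comm] at hz
  refine ⟨z, ?_⟩
  apply j₂.isOpenEmbedding.injective
  simpa using hz

theorem preimage_le_opensRange_one (inter : j₁.opensRange ⊓ j₂.opensRange ≤
    (kk R₁ R₁₂ ≫ j₁).opensRange) (V : X.Opens) (hV : V ≤ j₂.opensRange) :
    j₁ ⁻¹ᵁ V ≤ (kk R₁ R₁₂).opensRange := by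
  intro x hx
  have h1 : j₁ x ∈ j₁.opensRange ⊓ j₂.opensRange := ⟨⟨x, rfl⟩, hV hx⟩
  obtain ⟨z, hz⟩ := inter h1
  refine ⟨z, ?_⟩
  apply j₁.isOpenEmbedding.injective
  simpa using hz

theorem isIso_aOne_app (V : X.Opens) (hV : j₁ ⁻¹ᵁ V ≤ (kk R₁ R₁₂).opensRange) :
    IsIso ((aOne f M₁ M₁₂ ι₁ j₁).app V) := by
  unfold aOne
  rw [Scheme.Modules.Hom.comp_app, Scheme.Modules.pushforward_map_app]
  have h1 := isIso_alpha_app f M₁ M₁₂ ι₁ (j₁ ⁻¹ᵁ V) hV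
  have h2 := isIso_app_of_isIso
    ((Scheme.Modules.pushforwardComp (kk R₁ R₁₂) j₁).hom.app (tilde M₁₂)) V
  exact IsIso.comp_isIso' h1 h2

theorem isIso_aTwo_app (V : X.Opens) (hV : j₂ ⁻¹ᵁ V ≤ (kk R₂ R₁₂).opensRange) :
    IsIso ((aTwo g M₂ M₁₂ ι₂ j₁ j₂ comm).app V) := by
  unfold aTwo
  rw [Scheme.Modules.Hom.comp_app, Scheme.Modules.Hom.comp_app,
    Scheme.Modules.pushforward_map_app]
  have h1 := isIso_alpha_app g M₂ M₁₂ ι₂ (j₂ ⁻¹ᵁ V) hV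
  have h2 := isIso_app_of_isIso
    ((Scheme.Modules.pushforwardComp (kk R₂ R₁₂) j₂).hom.app (tilde M₁₂)) V
  have h3 := isIso_app_of_isIso
    ((Scheme.Modules.pushforwardCongr comm.symm).hom.app (tilde M₁₂)) V
  exact IsIso.comp_isIso' h1 (IsIso.comp_isIso' h2 h3)

section RestrictIso

variable {Y Z : Scheme.{u}} (j : Y ⟶ Z) [IsOpenImmersion j] {A : Z.Modules} {T : Y.Modules}
  (ψ : A ⟶ (Scheme.Modules.pushforward j).obj T) (h : ∀ V : Z.Opens, V ≤ j.opensRange → IsIso (ψ.app V))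

theorem restrictFunctor_map_app {A A' : Z.Modules} (χ : A ⟶ A') (U : Y.Opens) :
    ((Scheme.Modules.restrictFunctor j).map χ).app U = χ.app (j ''ᵁ U) := rfl

include h in
theorem isIso_restrictFunctor_map : IsIso ((Scheme.Modules.restrictFunctor j).map ψ) := by
  rw [Scheme.Modules.Hom.isIso_iff_isIso_app]
  intro U
  rw [restrictFunctor_map_app]
  exact h _ (Scheme.Hom.image_le_opensRange j U)

/-- If `ψ : A ⟶ j_* T` is an isomorphism on sections over the opens contained in the range of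
the open immersion `j`, then `A|_Y ≅ T`. -/
def restrictIso : A.restrict j ≅ T :=
  @asIso _ _ _ _ ((Scheme.Modules.restrictFunctor j).map ψ) (isIso_restrictFunctor_map j ψ h) ≪≫
    asIso ((Scheme.Modules.restrictAdjunction j).counit.app T)

theorem restrictIso_hom_app (U : Y.Opens) (x : Γ(A, j ''ᵁ U)) :
    (restrictIso j ψ h).hom.app U (rsec A j U x) =
      T.presheaf.map (eqToHom (j.preimage_image_eq U).symm).op
        ((psec j T (j ''ᵁ U)).symm (ψ.app (j ''ᵁ U) x)) := rfl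

/-- global sections of a module on `Spec R` isomorphic to `tilde M`. -/
def sectionsEquiv {R : CommRingCat.{u}} {Q : (Spec R).Modules} {M : ModuleCat.{u} R}
    (e : Q ≅ tilde M) :
    M ≃ₗ[R] ((modulesSpecToSheaf.obj Q).presheaf.obj (op ⊤) : ModuleCat R) :=
  (tilde.isoTop M ≪≫ (moduleSpecΓFunctor.mapIso e).symm).toLinearEquiv

theorem sectionsEquiv_spec {R : CommRingCat.{u}} {Q : (Spec R).Modules} {M : ModuleCat.{u} R}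
    (e : Q ≅ tilde M) (m : M) :
    e.hom.app ⊤ (gsec Q ⊤ (sectionsEquiv e m)) = tsec M ⊤ m := by
  have h : gsec Q ⊤ (sectionsEquiv e m) = e.inv.app ⊤ (tsec M ⊤ m) := rfl
  rw [h, ← ConcreteCategory.comp_apply, ← Scheme.Modules.Hom.comp_app, Iso.inv_hom_id]
  rfl

/-- the section of `A` over the range of `j` corresponding to `m`. -/
def sigmaSec {R : CommRingCat.{u}} {Z : Scheme.{u}} (j : Spec R ⟶ Z) [IsOpenImmersion j]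
    {A : Z.Modules} {M : ModuleCat.{u} R} (e : A.restrict j ≅ tilde M) (m : M) : Γ(A, j ''ᵁ ⊤) :=
  (rsec A j ⊤).symm (gsec _ ⊤ (sectionsEquiv e m))

theorem app_sigmaSec {R : CommRingCat.{u}} {Z : Scheme.{u}} (j : Spec R ⟶ Z) [IsOpenImmersion j]
    {A : Z.Modules} {M : ModuleCat.{u} R}
    (ψ : A ⟶ (Scheme.Modules.pushforward j).obj (tilde M))
    (h : ∀ V : Z.Opens, V ≤ j.opensRange → IsIso (ψ.app V)) (m : M) :
    ψ.app (j ''ᵁ ⊤) (sigmaSec j (restrictIso j ψ h) m) =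
      psec j (tilde M) (j ''ᵁ ⊤) (tsec M (j ⁻¹ᵁ (j ''ᵁ ⊤)) m) := by
  have h1 := sectionsEquiv_spec (restrictIso j ψ h) m
  have h2 := restrictIso_hom_app j ψ h ⊤ (sigmaSec j (restrictIso j ψ h) m)
  have h3 : rsec A j ⊤ (sigmaSec j (restrictIso j ψ h) m) =
      gsec _ ⊤ (sectionsEquiv (restrictIso j ψ h) m) := rfl
  rw [h3, h1] at h2
  have h4 := congrArg ((tilde M).presheaf.map (eqToHom (j.preimage_image_eq ⊤)).op) h2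
  rw [tsec_res, presheaf_map_map, presheaf_map_self] at h4
  exact ((psec j (tilde M) (j ''ᵁ ⊤)).symm_apply_eq.mp h4.symm)

end RestrictIso

/-- The glued module `j₁⁎M̃₁ ×_{j₁₂⁎M̃₁₂} j₂⁎M̃₂`. -/
def glued : X.Modules :=
  pullback (aOne f M₁ M₁₂ ι₁ j₁) (aTwo g M₂ M₁₂ ι₂ j₁ j₂ comm)

/-- first projection -/
def gfst : glued f g M₁ M₂ M₁₂ ι₁ ι₂ j₁ j₂ comm ⟶ (Scheme.Modules.pushforward j₁).obj (tilde M₁) :=
  pullback.fst _ _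

/-- second projection -/
def gsnd : glued f g M₁ M₂ M₁₂ ι₁ ι₂ j₁ j₂ comm ⟶ (Scheme.Modules.pushforward j₂).obj (tilde M₂) :=
  pullback.snd _ _

theorem gcondition : gfst f g M₁ M₂ M₁₂ ι₁ ι₂ j₁ j₂ comm ≫ aOne f M₁ M₁₂ ι₁ j₁ =
    gsnd f g M₁ M₂ M₁₂ ι₁ ι₂ j₁ j₂ comm ≫ aTwo g M₂ M₁₂ ι₂ j₁ j₂ comm :=
  pullback.condition

variable (inter : j₁.opensRange ⊓ j₂.opensRange ≤ (kk R₁ R₁₂ ≫ j₁).opensRange)

include inter in
theorem isIso_gfst_app (V : X.Opens) (hV : V ≤ j₁.opensRange) :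
    IsIso ((gfst f g M₁ M₂ M₁₂ ι₁ ι₂ j₁ j₂ comm).app V) :=
  isIso_app_fst _ _ V (isIso_aTwo_app g M₂ M₁₂ ι₂ j₁ j₂ comm V
    (preimage_le_opensRange_two j₁ j₂ comm inter V hV))

include inter in
theorem isIso_gsnd_app (V : X.Opens) (hV : V ≤ j₂.opensRange) :
    IsIso ((gsnd f g M₁ M₂ M₁₂ ι₁ ι₂ j₁ j₂ comm).app V) :=
  isIso_app_snd _ _ V (isIso_aOne_app f M₁ M₁₂ ι₁ j₁ V
    (preimage_le_opensRange_one j₁ j₂ inter V hV))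

theorem opensRange_comp_le_one : (kk R₁ R₁₂ ≫ j₁).opensRange ≤ j₁.opensRange := by
  rintro _ ⟨z, rfl⟩
  exact ⟨kk R₁ R₁₂ z, by simp⟩

include comm in
theorem opensRange_comp_le_two : (kk R₁ R₁₂ ≫ j₁).opensRange ≤ j₂.opensRange := by
  rintro _ ⟨z, rfl⟩
  have h : (kk R₁ R₁₂ ≫ j₁) z = (kk R₂ R₁₂ ≫ j₂) z :=
    congrArg (fun h : Spec R₁₂ ⟶ X => h z) comm
  exact ⟨kk R₂ R₁₂ z, by rw [h]; simp⟩

include inter in
theorem isIso_gfst_aOne_app (V : X.Opens) (hV : V ≤ (kk R₁ R₁₂ ≫ j₁).opensRange) :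
    IsIso ((gfst f g M₁ M₂ M₁₂ ι₁ ι₂ j₁ j₂ comm ≫ aOne f M₁ M₁₂ ι₁ j₁).app V) := by
  rw [Scheme.Modules.Hom.comp_app]
  have h1 := isIso_gfst_app f g M₁ M₂ M₁₂ ι₁ ι₂ j₁ j₂ comm inter V
    (hV.trans (opensRange_comp_le_one j₁))
  have h2 := isIso_aOne_app f M₁ M₁₂ ι₁ j₁ V
    (preimage_le_opensRange_one j₁ j₂ inter V (hV.trans (opensRange_comp_le_two j₁ j₂ comm)))
  exact IsIso.comp_isIso' h1 h2

/-- `e₁ : F|_{Spec R₁} ≅ M̃₁`. -/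
def gluedIso₁ : (glued f g M₁ M₂ M₁₂ ι₁ ι₂ j₁ j₂ comm).restrict j₁ ≅ tilde M₁ :=
  restrictIso j₁ (gfst f g M₁ M₂ M₁₂ ι₁ ι₂ j₁ j₂ comm)
    (isIso_gfst_app f g M₁ M₂ M₁₂ ι₁ ι₂ j₁ j₂ comm inter)

/-- `e₂ : F|_{Spec R₂} ≅ M̃₂`. -/
def gluedIso₂ : (glued f g M₁ M₂ M₁₂ ι₁ ι₂ j₁ j₂ comm).restrict j₂ ≅ tilde M₂ :=
  restrictIso j₂ (gsnd f g M₁ M₂ M₁₂ ι₁ ι₂ j₁ j₂ comm)
    (isIso_gsnd_app f g M₁ M₂ M₁₂ ι₁ ι₂ j₁ j₂ comm inter)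

/-- `e₁₂ : F|_{Spec R₁₂} ≅ M̃₁₂`. -/
def gluedIso₁₂ : (glued f g M₁ M₂ M₁₂ ι₁ ι₂ j₁ j₂ comm).restrict (kk R₁ R₁₂ ≫ j₁) ≅ tilde M₁₂ :=
  restrictIso (kk R₁ R₁₂ ≫ j₁) (gfst f g M₁ M₂ M₁₂ ι₁ ι₂ j₁ j₂ comm ≫ aOne f M₁ M₁₂ ι₁ j₁)
    (isIso_gfst_aOne_app f g M₁ M₂ M₁₂ ι₁ ι₂ j₁ j₂ comm inter)

theorem image_top_comp_le_one : (kk R₁ R₁₂ ≫ j₁) ''ᵁ ⊤ ≤ j₁ ''ᵁ ⊤ := by
  rw [Scheme.Hom.image_top_eq_opensRange, Scheme.Hom.image_top_eq_opensRange]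
  exact opensRange_comp_le_one j₁

include comm in
theorem image_top_comp_le_two : (kk R₁ R₁₂ ≫ j₁) ''ᵁ ⊤ ≤ j₂ ''ᵁ ⊤ := by
  rw [Scheme.Hom.image_top_eq_opensRange, Scheme.Hom.image_top_eq_opensRange]
  exact opensRange_comp_le_two j₁ j₂ comm

theorem app_injective_of_isIso {Y : Scheme.{u}} {A A' : Y.Modules} (ψ : A ⟶ A') (V : Y.Opens)
    (h : IsIso (ψ.app V)) : Function.Injective (ψ.app V) :=
  (ConcreteCategory.bijective_of_isIso (ψ.app V)).injective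

/-- Compatibility of the canonical sections with `ι₁`. -/
theorem sigmaSec_compat₁ (m : M₁) :
    (glued f g M₁ M₂ M₁₂ ι₁ ι₂ j₁ j₂ comm).presheaf.map (homOfLE (image_top_comp_le_one j₁)).op
      (sigmaSec j₁ (gluedIso₁ f g M₁ M₂ M₁₂ ι₁ ι₂ j₁ j₂ comm inter) m) =
    sigmaSec (kk R₁ R₁₂ ≫ j₁) (gluedIso₁₂ f g M₁ M₂ M₁₂ ι₁ ι₂ j₁ j₂ comm inter) (ι₁ m) := by
  apply app_injective_of_isIso _ _ (isIso_gfst_aOne_app f g M₁ M₂ M₁₂ ι₁ ι₂ j₁ j₂ comm inter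
    ((kk R₁ R₁₂ ≫ j₁) ''ᵁ ⊤) (Scheme.Hom.image_le_opensRange _ _))
  rw [app_res]
  erw [app_sigmaSec (kk R₁ R₁₂ ≫ j₁) (gfst f g M₁ M₂ M₁₂ ι₁ ι₂ j₁ j₂ comm ≫ aOne f M₁ M₁₂ ι₁ j₁)
    (isIso_gfst_aOne_app f g M₁ M₂ M₁₂ ι₁ ι₂ j₁ j₂ comm inter) (ι₁ m)]
  rw [Scheme.Modules.Hom.comp_app, ConcreteCategory.comp_apply]
  erw [app_sigmaSec j₁ (gfst f g M₁ M₂ M₁₂ ι₁ ι₂ j₁ j₂ comm)
    (isIso_gfst_app f g M₁ M₂ M₁₂ ι₁ ι₂ j₁ j₂ comm inter) m]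
  rw [aOne_app_tsec]
  rfl

/-- Compatibility of the canonical sections with `ι₂`. -/
theorem sigmaSec_compat₂ (m : M₂) :
    (glued f g M₁ M₂ M₁₂ ι₁ ι₂ j₁ j₂ comm).presheaf.map
        (homOfLE (image_top_comp_le_two j₁ j₂ comm)).op
      (sigmaSec j₂ (gluedIso₂ f g M₁ M₂ M₁₂ ι₁ ι₂ j₁ j₂ comm inter) m) =
    sigmaSec (kk R₁ R₁₂ ≫ j₁) (gluedIso₁₂ f g M₁ M₂ M₁₂ ι₁ ι₂ j₁ j₂ comm inter) (ι₂ m) := by
  apply app_injective_of_isIso _ _ (isIso_gfst_aOne_app f g M₁ M₂ M₁₂ ι₁ ι₂ j₁ j₂ comm inter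
    ((kk R₁ R₁₂ ≫ j₁) ''ᵁ ⊤) (Scheme.Hom.image_le_opensRange _ _))
  rw [app_res]
  erw [app_sigmaSec (kk R₁ R₁₂ ≫ j₁) (gfst f g M₁ M₂ M₁₂ ι₁ ι₂ j₁ j₂ comm ≫ aOne f M₁ M₁₂ ι₁ j₁)
    (isIso_gfst_aOne_app f g M₁ M₂ M₁₂ ι₁ ι₂ j₁ j₂ comm inter) (ι₂ m)]
  rw [gcondition, Scheme.Modules.Hom.comp_app, ConcreteCategory.comp_apply]
  erw [app_sigmaSec j₂ (gsnd f g M₁ M₂ M₁₂ ι₁ ι₂ j₁ j₂ comm)
    (isIso_gsnd_app f g M₁ M₂ M₁₂ ι₁ ι₂ j₁ j₂ comm inter) m]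
  rw [aTwo_app_tsec]
  rfl

end Global

/-! ## Part 4: specialization to `TwoChart` / `GluedModule` -/
section Core

variable {R : Type u} [CommRing R] (𝔹 : TwoChart R)

/-- `B₁₂` as a `B₁`-algebra. -/
@[reducible] def algOne : Algebra 𝔹.B₁ 𝔹.B₁₂ := (𝔹.r₁ : 𝔹.B₁ →+* 𝔹.B₁₂).toAlgebra
/-- `B₁₂` as a `B₂`-algebra. -/
@[reducible] def algTwo : Algebra 𝔹.B₂ 𝔹.B₁₂ := (𝔹.r₂ : 𝔹.B₂ →+* 𝔹.B₁₂).toAlgebra

attribute [local instance] algOne algTwo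

theorem isLocalization_one : IsLocalization.Away 𝔹.f 𝔹.B₁₂ :=
  isLocalization_away_of_core 𝔹.f (𝔹.r₂ 𝔹.g) 𝔹.fg 𝔹.surj₁ 𝔹.ker₁

theorem isLocalization_two : IsLocalization.Away 𝔹.g 𝔹.B₁₂ :=
  isLocalization_away_of_core 𝔹.g (𝔹.r₁ 𝔹.f) (by rw [mul_comm]; exact 𝔹.fg) 𝔹.surj₂ 𝔹.ker₂

variable {𝔹} (N : GluedModule 𝔹)

/-- `N₁₂` as a `B₁`-module. -/
@[reducible] def modOne : Module 𝔹.B₁ N.N₁₂ := Module.compHom N.N₁₂ (𝔹.r₁ : 𝔹.B₁ →+* 𝔹.B₁₂)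
/-- `N₁₂` as a `B₂`-module. -/
@[reducible] def modTwo : Module 𝔹.B₂ N.N₁₂ := Module.compHom N.N₁₂ (𝔹.r₂ : 𝔹.B₂ →+* 𝔹.B₁₂)

attribute [local instance] modOne modTwo

theorem towerOne : IsScalarTower 𝔹.B₁ 𝔹.B₁₂ N.N₁₂ :=
  IsScalarTower.of_algebraMap_smul (fun _ _ => rfl)

theorem towerTwo : IsScalarTower 𝔹.B₂ 𝔹.B₁₂ N.N₁₂ :=
  IsScalarTower.of_algebraMap_smul (fun _ _ => rfl)

/-- `ι₁` as a `B₁`-linear map. -/
def iotaOne : N.N₁ →ₗ[𝔹.B₁] N.N₁₂ where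
  toFun := N.ι₁
  map_add' := N.ι₁.map_add
  map_smul' b n := N.ι₁_smul b n

/-- `ι₂` as a `B₂`-linear map. -/
def iotaTwo : N.N₂ →ₗ[𝔹.B₂] N.N₁₂ where
  toFun := N.ι₂
  map_add' := N.ι₂.map_add
  map_smul' b n := N.ι₂_smul b n

theorem isLocalizedModule_one : IsLocalizedModule (Submonoid.powers 𝔹.f) (iotaOne N) :=
  haveI := towerOne N
  isLocalizedModule_away_of_core 𝔹.f (𝔹.r₂ 𝔹.g) (iotaOne N) 𝔹.fg N.surj₁ N.ker₁

theorem isLocalizedModule_two : IsLocalizedModule (Submonoid.powers 𝔹.g) (iotaTwo N) :=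
  haveI := towerTwo N
  isLocalizedModule_away_of_core 𝔹.g (𝔹.r₁ 𝔹.f) (iotaTwo N) (by rw [mul_comm]; exact 𝔹.fg)
    N.surj₂ N.ker₂

/-- A scheme `X` presented by the two-chart `𝔹`: two affine open charts `Spec B₁`, `Spec B₂`
covering `X`, whose intersection is `Spec B₁₂`. -/
structure Atlas {R : Type u} [CommRing R] (𝔹 : TwoChart R) (X : Scheme.{u}) where
  j₁ : Spec (CommRingCat.of 𝔹.B₁) ⟶ X
  j₂ : Spec (CommRingCat.of 𝔹.B₂) ⟶ X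
  open₁ : IsOpenImmersion j₁
  open₂ : IsOpenImmersion j₂
  comm : Spec.map (CommRingCat.ofHom (𝔹.r₁ : 𝔹.B₁ →+* 𝔹.B₁₂)) ≫ j₁ =
    Spec.map (CommRingCat.ofHom (𝔹.r₂ : 𝔹.B₂ →+* 𝔹.B₁₂)) ≫ j₂
  cover : ∀ x : X, x ∈ Set.range j₁ ∨ x ∈ Set.range j₂
  inter : ∀ (x₁ : Spec (CommRingCat.of 𝔹.B₁)) (x₂ : Spec (CommRingCat.of 𝔹.B₂)), j₁ x₁ = j₂ x₂ →
    ∃ z : Spec (CommRingCat.of 𝔹.B₁₂),
      Spec.map (CommRingCat.ofHom (𝔹.r₁ : 𝔹.B₁ →+* 𝔹.B₁₂)) z = x₁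

attribute [instance] Atlas.open₁ Atlas.open₂

variable {X : Scheme.{u}} (𝒜 : Atlas 𝔹 X)

/-- The chart of the intersection, `Spec B₁₂ ⟶ X`. -/
def Atlas.j₁₂ : Spec (CommRingCat.of 𝔹.B₁₂) ⟶ X :=
  Spec.map (CommRingCat.ofHom (𝔹.r₁ : 𝔹.B₁ →+* 𝔹.B₁₂)) ≫ 𝒜.j₁

instance isOpenImmersion_specMap_r₁ :
    IsOpenImmersion (Spec.map (CommRingCat.ofHom (𝔹.r₁ : 𝔹.B₁ →+* 𝔹.B₁₂))) :=
  haveI := isLocalization_one 𝔹
  IsOpenImmersion.of_isLocalization (R := 𝔹.B₁) (S := 𝔹.B₁₂) 𝔹.f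

instance isOpenImmersion_specMap_r₂ :
    IsOpenImmersion (Spec.map (CommRingCat.ofHom (𝔹.r₂ : 𝔹.B₂ →+* 𝔹.B₁₂))) :=
  haveI := isLocalization_two 𝔹
  IsOpenImmersion.of_isLocalization (R := 𝔹.B₂) (S := 𝔹.B₁₂) 𝔹.g

instance : IsOpenImmersion 𝒜.j₁₂ := by
  unfold Atlas.j₁₂; infer_instance

theorem Atlas.inter_le : 𝒜.j₁.opensRange ⊓ 𝒜.j₂.opensRange ≤ 𝒜.j₁₂.opensRange := by
  rintro _ ⟨⟨x₁, rfl⟩, ⟨x₂, h⟩⟩
  obtain ⟨z, rfl⟩ := 𝒜.inter x₁ x₂ h.symm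
  exact ⟨z, by simp [Atlas.j₁₂]⟩

attribute [local instance] isLocalization_one isLocalization_two towerOne towerTwo
  isLocalizedModule_one isLocalizedModule_two

instance isOpenImmersion_kk_one :
    IsOpenImmersion (kk (CommRingCat.of 𝔹.B₁) (CommRingCat.of 𝔹.B₁₂)) :=
  isOpenImmersion_specMap_r₁ (𝔹 := 𝔹)

instance isOpenImmersion_kk_two :
    IsOpenImmersion (kk (CommRingCat.of 𝔹.B₂) (CommRingCat.of 𝔹.B₁₂)) :=
  isOpenImmersion_specMap_r₂ (𝔹 := 𝔹)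

/-- **`ofGlued`**: the sheaf of modules on `X` glued from a `GluedModule`. -/
def ofGlued : X.Modules :=
  glued (R₁ := CommRingCat.of 𝔹.B₁) (R₂ := CommRingCat.of 𝔹.B₂) (R₁₂ := CommRingCat.of 𝔹.B₁₂)
    𝔹.f 𝔹.g (ModuleCat.of 𝔹.B₁ N.N₁) (ModuleCat.of 𝔹.B₂ N.N₂) (ModuleCat.of 𝔹.B₁₂ N.N₁₂)
    (iotaOne N) (iotaTwo N) 𝒜.j₁ 𝒜.j₂ 𝒜.comm

/-- `(ofGlued N)|_{Spec B₁} ≅ Ñ₁`. -/
def ofGluedIso₁ : (ofGlued N 𝒜).restrict 𝒜.j₁ ≅ tilde (ModuleCat.of 𝔹.B₁ N.N₁) :=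
  gluedIso₁ (R₁ := CommRingCat.of 𝔹.B₁) (R₂ := CommRingCat.of 𝔹.B₂) (R₁₂ := CommRingCat.of 𝔹.B₁₂)
    𝔹.f 𝔹.g (ModuleCat.of 𝔹.B₁ N.N₁) (ModuleCat.of 𝔹.B₂ N.N₂) (ModuleCat.of 𝔹.B₁₂ N.N₁₂)
    (iotaOne N) (iotaTwo N) 𝒜.j₁ 𝒜.j₂ 𝒜.comm 𝒜.inter_le

/-- `(ofGlued N)|_{Spec B₂} ≅ Ñ₂`. -/
def ofGluedIso₂ : (ofGlued N 𝒜).restrict 𝒜.j₂ ≅ tilde (ModuleCat.of 𝔹.B₂ N.N₂) :=
  gluedIso₂ (R₁ := CommRingCat.of 𝔹.B₁) (R₂ := CommRingCat.of 𝔹.B₂) (R₁₂ := CommRingCat.of 𝔹.B₁₂)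
    𝔹.f 𝔹.g (ModuleCat.of 𝔹.B₁ N.N₁) (ModuleCat.of 𝔹.B₂ N.N₂) (ModuleCat.of 𝔹.B₁₂ N.N₁₂)
    (iotaOne N) (iotaTwo N) 𝒜.j₁ 𝒜.j₂ 𝒜.comm 𝒜.inter_le

/-- `(ofGlued N)|_{Spec B₁₂} ≅ Ñ₁₂`. -/
def ofGluedIso₁₂ : (ofGlued N 𝒜).restrict 𝒜.j₁₂ ≅ tilde (ModuleCat.of 𝔹.B₁₂ N.N₁₂) :=
  gluedIso₁₂ (R₁ := CommRingCat.of 𝔹.B₁) (R₂ := CommRingCat.of 𝔹.B₂) (R₁₂ := CommRingCat.of 𝔹.B₁₂)
    𝔹.f 𝔹.g (ModuleCat.of 𝔹.B₁ N.N₁) (ModuleCat.of 𝔹.B₂ N.N₂) (ModuleCat.of 𝔹.B₁₂ N.N₁₂)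
    (iotaOne N) (iotaTwo N) 𝒜.j₁ 𝒜.j₂ 𝒜.comm 𝒜.inter_le

theorem Atlas.image_le₁ : 𝒜.j₁₂ ''ᵁ ⊤ ≤ 𝒜.j₁ ''ᵁ ⊤ :=
  image_top_comp_le_one (R₁ := CommRingCat.of 𝔹.B₁) (R₁₂ := CommRingCat.of 𝔹.B₁₂) 𝒜.j₁

theorem Atlas.image_le₂ : 𝒜.j₁₂ ''ᵁ ⊤ ≤ 𝒜.j₂ ''ᵁ ⊤ :=
  image_top_comp_le_two (R₁ := CommRingCat.of 𝔹.B₁) (R₂ := CommRingCat.of 𝔹.B₂)
    (R₁₂ := CommRingCat.of 𝔹.B₁₂) 𝒜.j₁ 𝒜.j₂ 𝒜.comm

/-- `N₁ ≃ₗ[B₁] Γ((ofGlued N)|_{Spec B₁}, ⊤)`. -/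
def ofGluedEquiv₁ : N.N₁ ≃ₗ[𝔹.B₁]
    ((modulesSpecToSheaf.obj ((ofGlued N 𝒜).restrict 𝒜.j₁)).presheaf.obj (op ⊤) :
      ModuleCat (CommRingCat.of 𝔹.B₁)) :=
  sectionsEquiv (ofGluedIso₁ N 𝒜)

/-- `N₂ ≃ₗ[B₂] Γ((ofGlued N)|_{Spec B₂}, ⊤)`. -/
def ofGluedEquiv₂ : N.N₂ ≃ₗ[𝔹.B₂]
    ((modulesSpecToSheaf.obj ((ofGlued N 𝒜).restrict 𝒜.j₂)).presheaf.obj (op ⊤) :
      ModuleCat (CommRingCat.of 𝔹.B₂)) :=
  sectionsEquiv (ofGluedIso₂ N 𝒜)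

/-- `N₁₂ ≃ₗ[B₁₂] Γ((ofGlued N)|_{Spec B₁₂}, ⊤)`. -/
def ofGluedEquiv₁₂ : N.N₁₂ ≃ₗ[𝔹.B₁₂]
    ((modulesSpecToSheaf.obj ((ofGlued N 𝒜).restrict 𝒜.j₁₂)).presheaf.obj (op ⊤) :
      ModuleCat (CommRingCat.of 𝔹.B₁₂)) :=
  sectionsEquiv (ofGluedIso₁₂ N 𝒜)

/-- The section of `ofGlued N` over the first chart attached to `n : N₁`. -/
def ofGluedSec₁ (n : N.N₁) : Γ(ofGlued N 𝒜, 𝒜.j₁ ''ᵁ ⊤) :=
  sigmaSec 𝒜.j₁ (ofGluedIso₁ N 𝒜) n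

/-- The section of `ofGlued N` over the second chart attached to `n : N₂`. -/
def ofGluedSec₂ (n : N.N₂) : Γ(ofGlued N 𝒜, 𝒜.j₂ ''ᵁ ⊤) :=
  sigmaSec 𝒜.j₂ (ofGluedIso₂ N 𝒜) n

/-- The section of `ofGlued N` over the intersection attached to `n : N₁₂`. -/
def ofGluedSec₁₂ (n : N.N₁₂) : Γ(ofGlued N 𝒜, 𝒜.j₁₂ ''ᵁ ⊤) :=
  sigmaSec 𝒜.j₁₂ (ofGluedIso₁₂ N 𝒜) n

theorem ofGluedSec₁_eq (n : N.N₁) :
    ofGluedSec₁ N 𝒜 n = (rsec (ofGlued N 𝒜) 𝒜.j₁ ⊤).symm (gsec _ ⊤ (ofGluedEquiv₁ N 𝒜 n)) := rfl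

theorem ofGluedSec₂_eq (n : N.N₂) :
    ofGluedSec₂ N 𝒜 n = (rsec (ofGlued N 𝒜) 𝒜.j₂ ⊤).symm (gsec _ ⊤ (ofGluedEquiv₂ N 𝒜 n)) := rfl

theorem ofGluedSec₁₂_eq (n : N.N₁₂) :
    ofGluedSec₁₂ N 𝒜 n =
      (rsec (ofGlued N 𝒜) 𝒜.j₁₂ ⊤).symm (gsec _ ⊤ (ofGluedEquiv₁₂ N 𝒜 n)) := rfl

/-- **Compatibility with `ι₁`**: the restriction to the intersection of the section attached to
`n : N₁` is the section attached to `ι₁ n`. -/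
theorem ofGluedSec_res₁ (n : N.N₁) :
    (ofGlued N 𝒜).presheaf.map (homOfLE 𝒜.image_le₁).op (ofGluedSec₁ N 𝒜 n) =
      ofGluedSec₁₂ N 𝒜 (N.ι₁ n) :=
  sigmaSec_compat₁ (R₁ := CommRingCat.of 𝔹.B₁) (R₂ := CommRingCat.of 𝔹.B₂)
    (R₁₂ := CommRingCat.of 𝔹.B₁₂) 𝔹.f 𝔹.g (ModuleCat.of 𝔹.B₁ N.N₁) (ModuleCat.of 𝔹.B₂ N.N₂)
    (ModuleCat.of 𝔹.B₁₂ N.N₁₂) (iotaOne N) (iotaTwo N) 𝒜.j₁ 𝒜.j₂ 𝒜.comm 𝒜.inter_le n

/-- **Compatibility with `ι₂`**. -/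
theorem ofGluedSec_res₂ (n : N.N₂) :
    (ofGlued N 𝒜).presheaf.map (homOfLE 𝒜.image_le₂).op (ofGluedSec₂ N 𝒜 n) =
      ofGluedSec₁₂ N 𝒜 (N.ι₂ n) :=
  sigmaSec_compat₂ (R₁ := CommRingCat.of 𝔹.B₁) (R₂ := CommRingCat.of 𝔹.B₂)
    (R₁₂ := CommRingCat.of 𝔹.B₁₂) 𝔹.f 𝔹.g (ModuleCat.of 𝔹.B₁ N.N₁) (ModuleCat.of 𝔹.B₂ N.N₂)
    (ModuleCat.of 𝔹.B₁₂ N.N₁₂) (iotaOne N) (iotaTwo N) 𝒜.j₁ 𝒜.j₂ 𝒜.comm 𝒜.inter_le n

end Core

end Fermat.Agent.S25.DICT.H5770
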